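/-
Interface of the Frey-only substitute for Langlands–Tunnell: the statements connecting C0, C1–C4,
C5 and C6, and the proved composition.
-/
import Fermat.Agent.DS.PrimeDensity
import Fermat.Agent.LT.Data.Galois
import Fermat.Agent.Wiring.FreyModel
import Fermat.Prelude.Def_FLTPrelim_ModularRep
import Fermat.Prelude.Def_ModularForm_EisensteinChiNegThree

set_option autoImplicit false

open Fermat.Agent.Galois WeierstrassCurve CongruenceSubgroup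
open scoped MatrixGroups ModularForm

noncomputable section

namespace Fermat.Agent.LT

/-- Good supersingular reduction at 3 (case A). -/
def IsSupersingularThree (W : WeierstrassCurve ℤ) : Prop :=
  ¬ (3 : ℤ) ∣ W.Δ ∧ (3 : ℤ) ∣ W.c₄

/-- C0: the switched curve and the properties of its mod 3 representation. -/
def StmtC0 : Prop :=
  ∀ P : FreyPackage, ∃ (W : WeierstrassCurve ℤ) (ρ : GalQ →* GL (Fin 2) (ZMod 3)),
    W.Δ ≠ 0 ∧ W.IsSemistableModel ∧ W.ModRepIsIrreducible 3 ∧ IsThreeRep W ρ ∧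
    (IsSupersingularThree W ∨ (3 : ℤ) ∣ W.Δ) ∧
    ∀ ℓ : ℕ, ℓ.Prime → P.freyCurveInt.IsGoodPrimeFor ℓ → W.IsGoodPrimeFor ℓ → ℓ ≠ 5 →
      (5 : ℤ) ∣ (W.apOfModel ℓ - P.freyCurveInt.apOfModel ℓ)

/-- C1–C3: a weight one eigenform whose eigenvalues at almost all split primes of `ℚ(√-3)` are the
traces of the octahedral lift. The level is `3` times a number prime to `3` when `3 ∣ Δ`. -/
def StmtWeightOne : Prop :=
  ∀ (W : WeierstrassCurve ℤ) (ρ : GalQ →* GL (Fin 2) (ZMod 3)),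
    W.Δ ≠ 0 → W.IsSemistableModel → IsThreeRep W ρ →
    ∃ (N : ℕ) (_ : NeZero N) (ε : DirichletCharacter ℂ N) (f : CuspForm (Gamma1 N) 1),
      ((3 : ℤ) ∣ W.Δ → ¬ 9 ∣ N) ∧
      ModularFormClass.qCoeff f 1 = 1 ∧
      (∀ p : ℕ, p.Prime → ¬ p ∣ N → ∀ n : ℕ,
        ModularFormClass.qCoeff f (p * n) +
            ε (p : ZMod N) * (if p ∣ n then ModularFormClass.qCoeff f (n / p) else 0) =
          ModularFormClass.qCoeff f p * ModularFormClass.qCoeff f n) ∧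
      (∀ g ∈ Gamma0 N, (⇑f) ∣[(1 : ℤ)] g =
        ε ((g 1 1 : ℤ) : ZMod N) • ⇑f) ∧
      ∃ X : Set ℕ, DS.PrimeDensityLE X 0 ∧
        ∀ p : ℕ, p.Prime → ¬ p ∣ N → p % 3 = 1 → p ∉ X →
          ∀ A : ValuationSubring Qbar, A.LiesOverPrime p → ∀ σ, A.IsFrobeniusAt σ p →
            ModularFormClass.qCoeff f p = octTrace ρ σ

/-- C4: from the weight one form to residual modularity at 3. -/
def StmtC4 : Prop :=
  StmtWeightOne →
  ∀ (W : WeierstrassCurve ℤ) (ρ : GalQ →* GL (Fin 2) (ZMod 3)),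
    W.Δ ≠ 0 → W.IsSemistableModel → IsThreeRep W ρ →
    ∃ M : ℕ, 0 < M ∧ W.IsResiduallyModularOfLevel 3 M ∧ ((3 : ℤ) ∣ W.Δ → ¬ 3 ^ 2 ∣ M)

/-- C5: removing 9 from the level in the good supersingular case. -/
def StmtC5 : Prop :=
  ∀ (W : WeierstrassCurve ℤ), W.Δ ≠ 0 → W.IsSemistableModel → W.ModRepIsIrreducible 3 →
    IsSupersingularThree W → ∀ M : ℕ, 0 < M → W.IsResiduallyModularOfLevel 3 M →
    ∃ M' : ℕ, 0 < M' ∧ W.IsResiduallyModularOfLevel 3 M' ∧ ¬ 3 ^ 2 ∣ M'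

/-- The output of the LT route, consumed by C6. -/
def StmtFreyResidualThree : Prop :=
  ∀ P : FreyPackage, ∃ W : WeierstrassCurve ℤ,
    W.Δ ≠ 0 ∧ W.IsSemistableModel ∧ W.ModRepIsIrreducible 3 ∧
    (∀ ℓ : ℕ, ℓ.Prime → P.freyCurveInt.IsGoodPrimeFor ℓ → W.IsGoodPrimeFor ℓ → ℓ ≠ 5 →
      (5 : ℤ) ∣ (W.apOfModel ℓ - P.freyCurveInt.apOfModel ℓ)) ∧
    ∃ M : ℕ, 0 < M ∧ W.IsResiduallyModularOfLevel 3 M ∧ ¬ 3 ^ 2 ∣ M

theorem stmtFreyResidualThree_of (h0 : StmtC0) (h13 : StmtWeightOne) (h4 : StmtC4)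
    (h5 : StmtC5) : StmtFreyResidualThree := by
  intro P
  obtain ⟨W, ρ, hΔ, hW, hirr, hρ, hcase, hcong⟩ := h0 P
  obtain ⟨M, hM0, hres, h9⟩ := h4 h13 W ρ hΔ hW hρ
  refine ⟨W, hΔ, hW, hirr, hcong, ?_⟩
  rcases hcase with h | h
  · exact h5 W hΔ hW hirr h M hM0 hres
  · exact ⟨M, hM0, hres, h9 h⟩

end Fermat.Agent.LT
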