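import Fermat.Agent.LT.Wiring.Frey
import Fermat.Agent.R59.Lower.Descent

/-!
# Residual levels at 3 can be made cube-free away from 3
-/

set_option autoImplicit false

noncomputable section

open WeierstrassCurve

namespace Fermat.Agent.LT

/-- `StmtCubeFree` from the geometric input at `X₀(qⁿ L)`, `n ≥ 3`. -/
theorem stmtCubeFree_of_keyHigh (hkey : R59.Lower.StmtKeyHigh) : StmtCubeFree := by
  intro W hΔ hW hirr M hM hres h9
  induction M using Nat.strong_induction_on with
  | _ M ih =>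
    by_cases h : ∀ q : ℕ, q.Prime → q ≠ 3 → ¬ q ^ 3 ∣ M
    · exact ⟨M, hM, hres, h9, h⟩
    push Not at h
    obtain ⟨q, hq, hq3, hdvd⟩ := h
    obtain ⟨N, rfl⟩ : q ∣ M := (dvd_pow_self q three_ne_zero).trans hdvd
    have hN : N ≠ 0 := by rintro rfl; simp at hM
    have : NeZero N := ⟨hN⟩
    have : NeZero q := ⟨hq.ne_zero⟩
    have : Fact (Nat.Prime 3) := ⟨Nat.prime_three⟩
    have h2 : q ^ 2 ∣ N := Nat.dvd_of_mul_dvd_mul_left hq.pos (by rwa [pow_succ'] at hdvd)
    rw [mul_comm] at hres h9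
    have hres' := R59.Lower.descend hkey hΔ (by norm_num) hirr hq hq3 (hW q hq) h2 hres
    exact ih N (lt_mul_of_one_lt_right (Nat.pos_of_ne_zero hN) hq.one_lt |>.trans_eq (mul_comm N q))
      (Nat.pos_of_ne_zero hN) hres' (fun h => h9 (h.mul_right q))

end Fermat.Agent.LT
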